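import Mathlib.RingTheory.Valuation.ValuationSubring
import Mathlib.Algebra.Field.Subfield.Basic

/-!
# S35 / cell FROB, leaf NR (norm residues) — abstract core (author: helper502)

VERBATIM copy of `origin/helper502:Fermat/Agent/S35/H502/NRAbs.lean` (commit 81317922, author
helper502), re-namespaced to `Fermat.Agent.S35.G.H199.NR` so that the closure of
`S35/G/H199/ToricMod.lean` (leaf TORIC / GLUE of the (G') route) is self-contained on main.

Mathlib-only.  Abstract form of step (e) of `origin/helper891:coord/S35-FROB-helper891.md`.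

Setting: two fields `FM` (level `M'`) and `F` (level `N = M' q`), two embeddings `α β : FM →+* F`,
automorphisms `σM` of `FM` and `σ` of `F` (a Frobenius lift) commuting with `α`, `β`, valuation
subrings `VM ⊆ FM`, `V₁ V₂ ⊆ F` (the Gauss valuations `V∞`, `V₀`), constants `CM ⊆ FM`, `C ⊆ F`,
multiplicative "norm" maps `Nα Nβ : F →* FM`.

`GSplitAt V C m u` : `u ≡ c * y ^ m` modulo the maximal ideal of `V`, `c ∈ C` a constant unit, `y` a
unit of `V` (i.e. the residue of `u` is trivial in `κ^× / (k^× (κ^×)^m)`).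

Hypotheses (`NRSetting`), all elementwise:
* `comm_α`, `comm_β`, `norm_α`, `norm_β` : `σ` commutes with `α`, `β`, `Nα`, `Nβ`;
* `val_M`, `val₁`, `val₂` : `σM`, `σ` preserve the valuations;
* `unit_α`, `max_α` (at `V₁`), `unit_β`, `max_β` (at `V₂`) : `α`, `β` are local;
* `res_α`, `res_β` : residue degree one (`V₁` over `α VM`, `V₂` over `β VM`)   [A2 MOD leaf L11];
* `kron₁`, `kron₂` : semilinear Kronecker congruences
  `β (σM b) ≡ (α b)^q mod 𝔪_{V₁}`, `α (σM b) ≡ (β b)^q mod 𝔪_{V₂}`       [A2 `H612.kron_inf/zero`];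
* `normRes_α`, `normRes_β` : residue of the norm of a unit `g` of `V₁ ∩ V₂`:
  `Nα g ≡ x₁ x₂` if `α x₁ ≡ g mod 𝔪_{V₁}` and `α x₂ ≡ g^q mod 𝔪_{V₂}`      [leaf NORM];
* `const_σ`, `const_α`, `const_β` : constants are preserved.

Main theorem `gSplit_of_qNew` (NR): if `Nα f = c h^m`, `Nβ f = c' h'^m` (`f` is `q`-new), then
`g₂ := (φ - 1)² f = φ(g)/g`, `g := φ(f)/f`, `φ := σ²`, is `G`-split at `V₁` and at `V₂`.
-/

set_option autoImplicit false

namespace Fermat.Agent.S35.G.H199.NR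

section Cong

variable {K : Type*} [Field K] (V : ValuationSubring K)

theorem val_lt_one_trans {a b c : K} (h1 : V.valuation (a - b) < 1)
    (h2 : V.valuation (b - c) < 1) : V.valuation (a - c) < 1 := by
  have : a - c = (a - b) + (b - c) := by ring
  rw [this]
  exact Valuation.map_add_lt _ h1 h2

theorem val_lt_one_symm {a b : K} (h : V.valuation (a - b) < 1) : V.valuation (b - a) < 1 := by
  rw [← Valuation.map_neg, neg_sub]
  exact h

theorem val_eq_one_of_cong {a b : K} (h : V.valuation (a - b) < 1) (hb : V.valuation b = 1) :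
    V.valuation a = 1 := by
  have hlt : V.valuation (a - b) < V.valuation b := by
    rw [hb]
    exact h
  have h2 : V.valuation (a - b + b) = V.valuation b :=
    Valuation.map_add_eq_of_lt_right _ hlt
  rw [sub_add_cancel] at h2
  rw [h2, hb]

theorem val_le_one_of_cong {a b : K} (h : V.valuation (a - b) < 1) (hb : V.valuation b ≤ 1) :
    V.valuation a ≤ 1 := by
  have : a = (a - b) + b := by ring
  rw [this]
  exact (Valuation.map_add_le_max' _ _ _).trans (max_le h.le hb)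

theorem val_mul_lt_one_left {a b : K} (ha : V.valuation a < 1) (hb : V.valuation b ≤ 1) :
    V.valuation (a * b) < 1 := by
  rw [Valuation.map_mul]
  calc V.valuation a * V.valuation b ≤ V.valuation a * 1 := by gcongr
    _ = V.valuation a := mul_one _
    _ < 1 := ha

theorem val_mul_lt_one_right {a b : K} (ha : V.valuation a ≤ 1) (hb : V.valuation b < 1) :
    V.valuation (a * b) < 1 := by
  rw [mul_comm]
  exact val_mul_lt_one_left V hb ha

theorem cong_mul {a a' b b' : K} (ha : V.valuation (a - a') < 1) (hb : V.valuation (b - b') < 1)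
    (ha' : V.valuation a' ≤ 1) (hb1 : V.valuation b ≤ 1) :
    V.valuation (a * b - a' * b') < 1 := by
  have : a * b - a' * b' = (a - a') * b + a' * (b - b') := by ring
  rw [this]
  exact Valuation.map_add_lt _ (val_mul_lt_one_left V ha hb1) (val_mul_lt_one_right V ha' hb)

theorem cong_pow {a b : K} (h : V.valuation (a - b) < 1) (hb : V.valuation b ≤ 1) (n : ℕ)
    (hn : 0 < n) : V.valuation (a ^ n - b ^ n) < 1 := by
  have ha : V.valuation a ≤ 1 := val_le_one_of_cong V h hb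
  induction n with
  | zero => exact absurd hn (lt_irrefl 0)
  | succ k ih =>
    rcases Nat.eq_zero_or_pos k with rfl | hk
    · simpa using h
    · rw [pow_succ, pow_succ]
      refine cong_mul V (ih hk) h ?_ ha
      rw [Valuation.map_pow]
      exact pow_le_one₀ zero_le hb

theorem cong_pow' {a b : K} (h : V.valuation (a - b) < 1) (hb : V.valuation b ≤ 1) (n : ℕ) :
    V.valuation (a ^ n - b ^ n) < 1 := by
  rcases Nat.eq_zero_or_pos n with rfl | hn
  · simp
  · exact cong_pow V h hb n hn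

theorem val_inv_eq_one {a : K} (ha : V.valuation a = 1) : V.valuation a⁻¹ = 1 := by
  rw [map_inv₀, ha, inv_one]

theorem ne_zero_of_val_eq_one {a : K} (ha : V.valuation a = 1) : a ≠ 0 := by
  rintro rfl
  rw [Valuation.map_zero] at ha
  exact zero_ne_one ha

theorem cong_div {a a' b b' : K} (ha : V.valuation (a - a') < 1)
    (hb : V.valuation (b - b') < 1) (ha' : V.valuation a' ≤ 1) (hb1 : V.valuation b = 1)
    (hb' : V.valuation b' = 1) : V.valuation (a / b - a' / b') < 1 := by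
  have hb0 : b ≠ 0 := ne_zero_of_val_eq_one V hb1
  have hb'0 : b' ≠ 0 := ne_zero_of_val_eq_one V hb'
  have h1 : a / b - a' / b' = ((a - a') * b' - a' * (b - b')) * (b * b')⁻¹ := by
    field_simp
    ring
  rw [h1]
  refine val_mul_lt_one_left V ?_ ?_
  · exact Valuation.map_sub_lt _ (val_mul_lt_one_left V ha hb'.le)
      (val_mul_lt_one_right V ha' hb)
  · rw [map_inv₀, Valuation.map_mul, hb1, hb', mul_one, inv_one]

theorem val_div_eq_one {a b : K} (ha : V.valuation a = 1) (hb : V.valuation b = 1) :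
    V.valuation (a / b) = 1 := by
  rw [map_div₀, ha, hb, div_one]

theorem val_mul_eq_one {a b : K} (ha : V.valuation a = 1) (hb : V.valuation b = 1) :
    V.valuation (a * b) = 1 := by
  rw [Valuation.map_mul, ha, hb, mul_one]

theorem val_pow_eq_one {a : K} (ha : V.valuation a = 1) (n : ℕ) : V.valuation (a ^ n) = 1 := by
  rw [Valuation.map_pow, ha, one_pow]

end Cong

/-- `u` is **`G`-split at `V`**: `u ≡ c * y ^ m` modulo the maximal ideal of `V`, with `c ∈ C` a
constant which is a unit of `V` and `y` a unit of `V`. -/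
def GSplitAt {K : Type*} [Field K] (V : ValuationSubring K) (C : Subfield K) (m : ℕ) (u : K) :
    Prop :=
  ∃ c ∈ C, ∃ y : K, V.valuation c = 1 ∧ V.valuation y = 1 ∧ V.valuation (u - c * y ^ m) < 1

theorem GSplitAt.val_eq_one {K : Type*} [Field K] {V : ValuationSubring K} {C : Subfield K}
    {m : ℕ} {u : K} (h : GSplitAt V C m u) : V.valuation u = 1 := by
  obtain ⟨c, _, y, hc, hy, hu⟩ := h
  exact val_eq_one_of_cong V hu (val_mul_eq_one V hc (val_pow_eq_one V hy m))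

variable {FM F : Type*} [Field FM] [Field F]

/-- The abstract setting of leaf NR (see the module docstring). -/
structure NRSetting (q : ℕ) (α β : FM →+* F) (σM : FM ≃+* FM) (σ : F ≃+* F)
    (VM : ValuationSubring FM) (V₁ V₂ : ValuationSubring F) (CM : Subfield FM) (C : Subfield F)
    (Nα Nβ : F →* FM) : Prop where
  comm_α : ∀ a, σ (α a) = α (σM a)
  comm_β : ∀ a, σ (β a) = β (σM a)
  norm_α : ∀ g, Nα (σ g) = σM (Nα g)
  norm_β : ∀ g, Nβ (σ g) = σM (Nβ g)
  val_M : ∀ h, VM.valuation (σM h) = 1 ↔ VM.valuation h = 1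
  max_M : ∀ h, VM.valuation (σM h) < 1 ↔ VM.valuation h < 1
  ratio_M : ∀ h, h ≠ 0 → VM.valuation (σM h / h) = 1
  max₁ : ∀ f, V₁.valuation (σ f) < 1 ↔ V₁.valuation f < 1
  ratio₁ : ∀ f, f ≠ 0 → V₁.valuation (σ f / f) = 1
  max₂ : ∀ f, V₂.valuation (σ f) < 1 ↔ V₂.valuation f < 1
  ratio₂ : ∀ f, f ≠ 0 → V₂.valuation (σ f / f) = 1
  unit_α : ∀ a, VM.valuation a = 1 → V₁.valuation (α a) = 1
  max_α : ∀ a, VM.valuation a < 1 → V₁.valuation (α a) < 1
  unit_β : ∀ a, VM.valuation a = 1 → V₂.valuation (β a) = 1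
  max_β : ∀ a, VM.valuation a < 1 → V₂.valuation (β a) < 1
  res_α : ∀ g, V₁.valuation g = 1 → ∃ x, VM.valuation x = 1 ∧ V₁.valuation (α x - g) < 1
  res_β : ∀ g, V₂.valuation g = 1 → ∃ y, VM.valuation y = 1 ∧ V₂.valuation (β y - g) < 1
  kron₁ : ∀ b, VM.valuation b = 1 → V₁.valuation (β (σM b) - (α b) ^ q) < 1
  kron₂ : ∀ b, VM.valuation b = 1 → V₂.valuation (α (σM b) - (β b) ^ q) < 1
  normRes_α : ∀ g x₁ x₂, V₁.valuation g = 1 → V₂.valuation g = 1 →
    VM.valuation x₁ = 1 → VM.valuation x₂ = 1 →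
    V₁.valuation (α x₁ - g) < 1 → V₂.valuation (α x₂ - g ^ q) < 1 →
    VM.valuation (Nα g - x₁ * x₂) < 1
  normRes_β : ∀ g y₁ y₂, V₁.valuation g = 1 → V₂.valuation g = 1 →
    VM.valuation y₁ = 1 → VM.valuation y₂ = 1 →
    V₁.valuation (β y₁ - g ^ q) < 1 → V₂.valuation (β y₂ - g) < 1 →
    VM.valuation (Nβ g - y₁ * y₂) < 1
  const_σ : ∀ c ∈ CM, σM c ∈ CM
  const_α : ∀ c ∈ CM, α c ∈ C
  const_β : ∀ c ∈ CM, β c ∈ C

namespace NRSetting

variable {q : ℕ} {α β : FM →+* F} {σM : FM ≃+* FM} {σ : F ≃+* F}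
  {VM : ValuationSubring FM} {V₁ V₂ : ValuationSubring F} {CM : Subfield FM} {C : Subfield F}
  {Nα Nβ : F →* FM}

omit [Field FM] [Field F] in
theorem map_div_of_ne_zero {G H : Type*} [Field G] [Field H] (N : G →* H) (a b : G)
    (hb : b ≠ 0) : N (a / b) = N a / N b := by
  have hNb : N b ≠ 0 := by
    intro h0
    have h1 : N b * N b⁻¹ = 1 := by rw [← map_mul, mul_inv_cancel₀ hb, map_one]
    rw [h0, zero_mul] at h1
    exact zero_ne_one h1
  rw [eq_div_iff hNb, ← map_mul, div_mul_cancel₀ a hb]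

omit [Field FM] [Field F] in
theorem map_ne_zero_of_ne_zero {G H : Type*} [Field G] [Field H] (N : G →* H) {b : G}
    (hb : b ≠ 0) : N b ≠ 0 := by
  intro h0
  have h1 : N b * N b⁻¹ = 1 := by rw [← map_mul, mul_inv_cancel₀ hb, map_one]
  rw [h0, zero_mul] at h1
  exact zero_ne_one h1

/-- The norm of `g = σ²(f)/f` when `N f = c h^m`. -/
theorem norm_ratio (N : F →* FM) (hN : ∀ g, N (σ g) = σM (N g)) {f : F} (hf : f ≠ 0) {m : ℕ}
    {c h : FM} (hNf : N f = c * h ^ m) :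
    N (σ (σ f) / f) = (σM (σM c) / c) * (σM (σM h) / h) ^ m := by
  have hNf0 : N f ≠ 0 := map_ne_zero_of_ne_zero N hf
  have hc : c ≠ 0 := by
    rintro rfl
    rw [zero_mul] at hNf
    exact hNf0 hNf
  have hh : h ^ m ≠ 0 := by
    intro h0
    rw [h0, mul_zero] at hNf
    exact hNf0 hNf
  rw [map_div_of_ne_zero N _ _ hf, hN, hN, hNf, map_mul, map_mul, map_pow, map_pow, div_pow]
  field_simp

variable (S : NRSetting q α β σM σ VM V₁ V₂ CM C Nα Nβ)
include S

theorem val_ratio_sq_M {h : FM} (hh : h ≠ 0) : VM.valuation (σM (σM h) / h) = 1 := by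
  have h1 := S.ratio_M h hh
  have hσh : σM h ≠ 0 := (map_ne_zero_iff σM σM.injective).2 hh
  have h2 := S.ratio_M (σM h) hσh
  have : σM (σM h) / h = (σM (σM h) / σM h) * (σM h / h) := by
    field_simp
  rw [this]
  exact val_mul_eq_one VM h2 h1

theorem val_ratio_sq₁ {f : F} (hf : f ≠ 0) : V₁.valuation (σ (σ f) / f) = 1 := by
  have h1 := S.ratio₁ f hf
  have hσf : σ f ≠ 0 := (map_ne_zero_iff σ σ.injective).2 hf
  have h2 := S.ratio₁ (σ f) hσf
  have : σ (σ f) / f = (σ (σ f) / σ f) * (σ f / f) := by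
    field_simp
  rw [this]
  exact val_mul_eq_one V₁ h2 h1

theorem val_ratio_sq₂ {f : F} (hf : f ≠ 0) : V₂.valuation (σ (σ f) / f) = 1 := by
  have h1 := S.ratio₂ f hf
  have hσf : σ f ≠ 0 := (map_ne_zero_iff σ σ.injective).2 hf
  have h2 := S.ratio₂ (σ f) hσf
  have : σ (σ f) / f = (σ (σ f) / σ f) * (σ f / f) := by
    field_simp
  rw [this]
  exact val_mul_eq_one V₂ h2 h1

theorem cong_σM {a b : FM} (h : VM.valuation (a - b) < 1) :
    VM.valuation (σM a - σM b) < 1 := by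
  rw [← map_sub]
  exact (S.max_M _).2 h

theorem cong_σ₁ {a b : F} (h : V₁.valuation (a - b) < 1) : V₁.valuation (σ a - σ b) < 1 := by
  rw [← map_sub]
  exact (S.max₁ _).2 h

theorem cong_σ₂ {a b : F} (h : V₂.valuation (a - b) < 1) : V₂.valuation (σ a - σ b) < 1 := by
  rw [← map_sub]
  exact (S.max₂ _).2 h

theorem cong_α {a b : FM} (h : VM.valuation (a - b) < 1) : V₁.valuation (α a - α b) < 1 := by
  rw [← map_sub]
  exact S.max_α _ h

theorem cong_β {a b : FM} (h : VM.valuation (a - b) < 1) : V₂.valuation (β a - β b) < 1 := by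
  rw [← map_sub]
  exact S.max_β _ h

/-- **NR, abstract form.**  If `f ≠ 0` is `q`-new (`Nα f = c h^m`, `Nβ f = c' h'^m` with constants
`c, c'`), then `(φ - 1)² f`, `φ = σ²`, is `G`-split at `V₁` and at `V₂`. -/
theorem gSplit_of_qNew {m : ℕ} {f : F} (hf : f ≠ 0) {c c' h h' : FM} (hc : c ∈ CM)
    (hc' : c' ∈ CM) (hNα : Nα f = c * h ^ m) (hNβ : Nβ f = c' * h' ^ m) :
    GSplitAt V₁ C m (σ (σ (σ (σ f) / f)) / (σ (σ f) / f)) ∧
      GSplitAt V₂ C m (σ (σ (σ (σ f) / f)) / (σ (σ f) / f)) := by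
  -- nonvanishing
  have hNf0 : Nα f ≠ 0 := map_ne_zero_of_ne_zero Nα hf
  have hNf0' : Nβ f ≠ 0 := map_ne_zero_of_ne_zero Nβ hf
  have hc0 : c ≠ 0 := by
    rintro rfl; rw [zero_mul] at hNα; exact hNf0 hNα
  have hc0' : c' ≠ 0 := by
    rintro rfl; rw [zero_mul] at hNβ; exact hNf0' hNβ
  have hh0 : h ≠ 0 ∨ m = 0 := by
    by_cases hm : m = 0
    · exact Or.inr hm
    · left
      rintro rfl
      rw [zero_pow hm, mul_zero] at hNα
      exact hNf0 hNα
  have hh0' : h' ≠ 0 ∨ m = 0 := by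
    by_cases hm : m = 0
    · exact Or.inr hm
    · left
      rintro rfl
      rw [zero_pow hm, mul_zero] at hNβ
      exact hNf0' hNβ
  -- the unit `g`
  set g : F := σ (σ f) / f with hg
  have hg1 : V₁.valuation g = 1 := S.val_ratio_sq₁ hf
  have hg2 : V₂.valuation g = 1 := S.val_ratio_sq₂ hf
  have hg0 : g ≠ 0 := ne_zero_of_val_eq_one V₁ hg1
  -- norms of `g`
  set c₁ : FM := σM (σM c) / c with hc₁
  set c₂ : FM := σM (σM c') / c' with hc₂
  -- replace `h`, `h'` by `1` if `m = 0`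
  obtain ⟨u₁, hu₁, hNαg⟩ : ∃ u₁ : FM, VM.valuation u₁ = 1 ∧ Nα g = c₁ * u₁ ^ m := by
    rcases hh0 with hh | hm
    · exact ⟨σM (σM h) / h, S.val_ratio_sq_M hh, norm_ratio Nα S.norm_α hf hNα⟩
    · refine ⟨1, Valuation.map_one _, ?_⟩
      have := norm_ratio Nα S.norm_α hf hNα
      rw [this, hm, pow_zero, pow_zero]
  obtain ⟨u₂, hu₂, hNβg⟩ : ∃ u₂ : FM, VM.valuation u₂ = 1 ∧ Nβ g = c₂ * u₂ ^ m := by
    rcases hh0' with hh | hm
    · exact ⟨σM (σM h') / h', S.val_ratio_sq_M hh, norm_ratio Nβ S.norm_β hf hNβ⟩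
    · refine ⟨1, Valuation.map_one _, ?_⟩
      have := norm_ratio Nβ S.norm_β hf hNβ
      rw [this, hm, pow_zero, pow_zero]
  have hc₁v : VM.valuation c₁ = 1 := S.val_ratio_sq_M hc0
  have hc₂v : VM.valuation c₂ = 1 := S.val_ratio_sq_M hc0'
  have hc₁C : c₁ ∈ CM := div_mem (S.const_σ _ (S.const_σ _ hc)) hc
  have hc₂C : c₂ ∈ CM := div_mem (S.const_σ _ (S.const_σ _ hc')) hc'
  -- residues of `g`
  obtain ⟨x, hx, hxg⟩ := S.res_α g hg1
  obtain ⟨y, hy, hyg⟩ := S.res_β g hg2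
  have hσx : VM.valuation (σM x) = 1 := (S.val_M x).2 hx
  have hσy : VM.valuation (σM y) = 1 := (S.val_M y).2 hy
  -- the two norm relations
  have hA : VM.valuation (Nα g - x * σM y) < 1 := by
    refine S.normRes_α g x (σM y) hg1 hg2 hx hσy hxg ?_
    refine val_lt_one_trans V₂ (S.kron₂ y hy) ?_
    exact cong_pow' V₂ hyg hg2.le q
  have hB : VM.valuation (Nβ g - σM x * y) < 1 := by
    refine S.normRes_β g (σM x) y hg1 hg2 hσx hy ?_ hyg
    refine val_lt_one_trans V₁ (S.kron₁ x hx) ?_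
    exact cong_pow' V₁ hxg hg1.le q
  rw [hNαg] at hA
  rw [hNβg] at hB
  -- units
  have hP₁ : VM.valuation (c₁ * u₁ ^ m) = 1 := val_mul_eq_one VM hc₁v (val_pow_eq_one VM hu₁ m)
  have hP₂ : VM.valuation (c₂ * u₂ ^ m) = 1 := val_mul_eq_one VM hc₂v (val_pow_eq_one VM hu₂ m)
  have hσc₁ : VM.valuation (σM c₁) = 1 := (S.val_M _).2 hc₁v
  have hσc₂ : VM.valuation (σM c₂) = 1 := (S.val_M _).2 hc₂v
  have hσu₁ : VM.valuation (σM u₁) = 1 := (S.val_M _).2 hu₁
  have hσu₂ : VM.valuation (σM u₂) = 1 := (S.val_M _).2 hu₂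
  have hσσx : VM.valuation (σM (σM x)) = 1 := (S.val_M _).2 hσx
  have hσσy : VM.valuation (σM (σM y)) = 1 := (S.val_M _).2 hσy
  have hx0 : x ≠ 0 := ne_zero_of_val_eq_one VM hx
  have hy0 : y ≠ 0 := ne_zero_of_val_eq_one VM hy
  have hσx0 : σM x ≠ 0 := ne_zero_of_val_eq_one VM hσx
  have hσy0 : σM y ≠ 0 := ne_zero_of_val_eq_one VM hσy
  have hu₁0 : u₁ ≠ 0 := ne_zero_of_val_eq_one VM hu₁
  have hu₂0 : u₂ ≠ 0 := ne_zero_of_val_eq_one VM hu₂
  have hc₁0 : c₁ ≠ 0 := ne_zero_of_val_eq_one VM hc₁v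
  have hc₂0 : c₂ ≠ 0 := ne_zero_of_val_eq_one VM hc₂v
  -- `σM` applied to the relations
  have hA' : VM.valuation (σM c₁ * σM u₁ ^ m - σM x * σM (σM y)) < 1 := by
    have := S.cong_σM hA
    rwa [map_mul, map_pow, map_mul] at this
  have hB' : VM.valuation (σM c₂ * σM u₂ ^ m - σM (σM x) * σM y) < 1 := by
    have := S.cong_σM hB
    rwa [map_mul, map_pow, map_mul] at this
  -- `φ x / x` and `φ y / y`
  have hX : VM.valuation (σM (σM x) / x - (σM c₂ / c₁) * (σM u₂ / u₁) ^ m) < 1 := by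
    have h1 : VM.valuation ((σM (σM x) * σM y) / (x * σM y)
        - (σM c₂ * σM u₂ ^ m) / (c₁ * u₁ ^ m)) < 1 :=
      cong_div VM (val_lt_one_symm VM hB') (val_lt_one_symm VM hA)
        (val_mul_eq_one VM hσc₂ (val_pow_eq_one VM hσu₂ m)).le
        (val_mul_eq_one VM hx hσy) hP₁
    have e1 : (σM (σM x) * σM y) / (x * σM y) = σM (σM x) / x := by
      field_simp
    have e2 : (σM c₂ * σM u₂ ^ m) / (c₁ * u₁ ^ m) = (σM c₂ / c₁) * (σM u₂ / u₁) ^ m := by
      rw [div_pow]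
      field_simp
    rwa [e1, e2] at h1
  have hY : VM.valuation (σM (σM y) / y - (σM c₁ / c₂) * (σM u₁ / u₂) ^ m) < 1 := by
    have h1 : VM.valuation ((σM x * σM (σM y)) / (σM x * y)
        - (σM c₁ * σM u₁ ^ m) / (c₂ * u₂ ^ m)) < 1 :=
      cong_div VM (val_lt_one_symm VM hA') (val_lt_one_symm VM hB)
        (val_mul_eq_one VM hσc₁ (val_pow_eq_one VM hσu₁ m)).le
        (val_mul_eq_one VM hσx hy) hP₂
    have e1 : (σM x * σM (σM y)) / (σM x * y) = σM (σM y) / y := by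
      field_simp
    have e2 : (σM c₁ * σM u₁ ^ m) / (c₂ * u₂ ^ m) = (σM c₁ / c₂) * (σM u₁ / u₂) ^ m := by
      rw [div_pow]
      field_simp
    rwa [e1, e2] at h1
  constructor
  · -- at `V₁`, through `α` and `x`
    refine ⟨α (σM c₂ / c₁), S.const_α _ (div_mem (S.const_σ _ hc₂C) hc₁C), α (σM u₂ / u₁),
      S.unit_α _ (val_div_eq_one VM hσc₂ hc₁v), S.unit_α _ (val_div_eq_one VM hσu₂ hu₁), ?_⟩
    have hαx : V₁.valuation (α x) = 1 := S.unit_α _ hx
    have h1 : V₁.valuation (σ (σ g) - α (σM (σM x))) < 1 := by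
      have := S.cong_σ₁ (S.cong_σ₁ (val_lt_one_symm V₁ hxg))
      rwa [S.comm_α, S.comm_α] at this
    have h2 : V₁.valuation (σ (σ g) / g - α (σM (σM x)) / α x) < 1 :=
      cong_div V₁ h1 (val_lt_one_symm V₁ hxg) (S.unit_α _ hσσx).le hg1 hαx
    have h3 : V₁.valuation (α (σM (σM x)) / α x - α (σM c₂ / c₁) * α (σM u₂ / u₁) ^ m) < 1 := by
      have := S.cong_α hX
      rwa [map_mul, map_pow, map_div₀ α (σM (σM x)) x] at this
    exact val_lt_one_trans V₁ h2 h3
  · -- at `V₂`, through `β` and `y`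
    refine ⟨β (σM c₁ / c₂), S.const_β _ (div_mem (S.const_σ _ hc₁C) hc₂C), β (σM u₁ / u₂),
      S.unit_β _ (val_div_eq_one VM hσc₁ hc₂v), S.unit_β _ (val_div_eq_one VM hσu₁ hu₂), ?_⟩
    have hβy : V₂.valuation (β y) = 1 := S.unit_β _ hy
    have h1 : V₂.valuation (σ (σ g) - β (σM (σM y))) < 1 := by
      have := S.cong_σ₂ (S.cong_σ₂ (val_lt_one_symm V₂ hyg))
      rwa [S.comm_β, S.comm_β] at this
    have h2 : V₂.valuation (σ (σ g) / g - β (σM (σM y)) / β y) < 1 :=
      cong_div V₂ h1 (val_lt_one_symm V₂ hyg) (S.unit_β _ hσσy).le hg2 hβy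
    have h3 : V₂.valuation (β (σM (σM y)) / β y - β (σM c₁ / c₂) * β (σM u₁ / u₂) ^ m) < 1 := by
      have := S.cong_β hY
      rwa [map_mul, map_pow, map_div₀ β (σM (σM y)) y] at this
    exact val_lt_one_trans V₂ h2 h3

end NRSetting

end Fermat.Agent.S35.G.H199.NR
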