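import Fermat.Agent.S35.G.H199.ToricMod
import Fermat.Agent.S35.G.H60.NormRedFinal
import Fermat.Agent.S35.G.H126.Stable
import Fermat.Agent.S35.G.H516.KronFrob

/-!
# S35 / (G') leaf TORIC — CLOSED (helper199)

`toric : G.ToricStatement A E M q m w` (VERBATIM `S35/G/SpecLevel.lean`, unconditional)
`= H199.glue (H60.normRed) (H126.stable) (H516.kronFrob)`.
Also `toricU` : the same with a unit `g` (`g ≠ 0`), for the `PowVU` form.
-/

set_option autoImplicit false
set_option linter.style.haveILetI false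
set_option linter.unusedSectionVars false
set_option synthInstance.maxHeartbeats 400000
set_option maxHeartbeats 1600000

namespace Fermat.Agent.S35.G.H199

open ModularCurve AlgebraicCurve Fermat.Agent.A2.Mod

/-- **TORIC** (leaf of the (G') route of S35), unconditional. -/
theorem toric (A : ValuationSubring G.Qb) (E : IntermediateField ℚ G.Qb) (M q m : ℕ) [NeZero M]
    [NeZero q] (w : RE A E) : ToricStatement A E M q m w :=
  glue A E M q w m (H60.normRed A E M q w) (H126.stable A E) (H516.kronFrob A E M q w)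

/-- **TORIC with a unit `g`** (`PowVU` form), unconditional. -/
theorem toricU (A : ValuationSubring G.Qb) (E : IntermediateField ℚ G.Qb) (M q m : ℕ) [NeZero M]
    [NeZero q] (w : RE A E) (hS : Setting A E M q w) (hGF : A2.GoodField A E) (hm : 0 < m)
    {V : ValuationSubring (FE E (M * q))} {W : FE E (M * q) ≃ₐ[E] FE E (M * q)}
    (hV : IsVinf A E (M * q) V) (hW : IsFricke E (M * q) W)
    {s : G.Qb ≃ₐ[ℚ] G.Qb} (hs : StableUnder E s) (hFr : A.IsFrobeniusAt s q)
    {f : FE E (M * q)} (hf : f ≠ 0)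
    (hα : NormPow (αE E M q) m f) (hβ : NormPow (βE E M q) m f) :
    (∃ g : FE E (M * q), g ≠ 0 ∧ g ∈ V ∧ g⁻¹ ∈ V ∧
      (frobSub (psiE E (M * q) s hs) 1 (frobSub (psiE E (M * q) s hs) 1 f) - g ^ m) *
        (cE A E (M * q) w)⁻¹ ∈ V) ∧
    (∃ g : FE E (M * q), g ≠ 0 ∧ g ∈ vz V W ∧ g⁻¹ ∈ vz V W ∧
      (frobSub (psiE E (M * q) s hs) 1 (frobSub (psiE E (M * q) s hs) 1 f) - g ^ m) *
        (cE A E (M * q) w)⁻¹ ∈ vz V W) :=
  toricU_of_parts m (H60.normRed A E M q w) (H126.stable A E) (H516.kronFrob A E M q w)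
    hS hGF hm hV hW hs hFr hf hα hβ

end Fermat.Agent.S35.G.H199
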