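import Fermat.Agent.A2.H48.TwoVal

/-!
# S35 / (G') leaf TORIC — valuation rings stable under an automorphism (helper199)

Mathlib-only (plus `A2.H48.IsUnif`).  `V` a valuation subring of a field `F`, `σ` an
automorphism of `F` with `σ V ⊆ V` and `σ⁻¹ V ⊆ V` (`StabAut V σ`).

* `StabAut.val_le_one_iff`, `val_eq_one_iff`, `val_lt_one_iff` : `σ` preserves the valuation
  conditions `≤ 1`, `= 1`, `< 1`;
* `StabAut.val_ratio` : if `V` is discrete with uniformiser `π`, then `σ f / f` is a unit of `V`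
  for every `f ≠ 0`;
* `exists_pow_sub_mem_maximalIdeal_h199` : in a local ring with algebraically closed residue
  field every unit is an `m`-th power modulo the maximal ideal (`m > 0`).
-/

set_option autoImplicit false

namespace Fermat.Agent.S35.G.H199

open Fermat.Agent.A2.H48

variable {F : Type*} [Field F]

/-- units of a valuation subring in terms of the valuation -/
theorem val_eq_one_iff_h199 (V : ValuationSubring F) {f : F} (hf : f ≠ 0) :
    V.valuation f = 1 ↔ f ∈ V ∧ f⁻¹ ∈ V := by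
  rw [← V.valuation_le_one_iff, ← V.valuation_le_one_iff, map_inv₀]
  have h0 : 0 < V.valuation f := zero_lt_iff.2 ((Valuation.ne_zero_iff _).2 hf)
  constructor
  · intro h
    rw [h]
    simp
  · rintro ⟨h1, h2⟩
    rw [inv_le_one₀ h0] at h2
    exact le_antisymm h1 h2

theorem val_lt_one_iff_h199 (V : ValuationSubring F) {f : F} :
    V.valuation f < 1 ↔ f ∈ V ∧ (f = 0 ∨ f⁻¹ ∉ V) := by
  by_cases hf : f = 0
  · subst hf
    simp
  have h1 := val_eq_one_iff_h199 V hf
  rw [← V.valuation_le_one_iff] at h1 ⊢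
  constructor
  · intro h
    refine ⟨h.le, Or.inr fun h2 => ?_⟩
    have h3 : V.valuation f⁻¹ ≤ 1 := (V.valuation_le_one_iff _).2 h2
    rw [map_inv₀, inv_le_one₀ (zero_lt_iff.2 ((Valuation.ne_zero_iff _).2 hf))] at h3
    exact absurd h (not_lt.2 h3)
  · rintro ⟨h2, h3 | h3⟩
    · exact absurd h3 hf
    · rcases lt_or_eq_of_le h2 with h4 | h4
      · exact h4
      · exact absurd (h1.1 h4).2 h3

/-- `σ` and `σ⁻¹` map `V` into itself. -/
structure StabAut (V : ValuationSubring F) (σ : F ≃+* F) : Prop where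
  map : ∀ f ∈ V, σ f ∈ V
  symm : ∀ f ∈ V, σ.symm f ∈ V

namespace StabAut

variable {V : ValuationSubring F} {σ : F ≃+* F}

theorem mem_iff (h : StabAut V σ) {f : F} : σ f ∈ V ↔ f ∈ V :=
  ⟨fun hf => by simpa using h.symm _ hf, h.map f⟩

theorem val_le_one_iff (h : StabAut V σ) (f : F) :
    V.valuation (σ f) ≤ 1 ↔ V.valuation f ≤ 1 := by
  rw [V.valuation_le_one_iff, V.valuation_le_one_iff, h.mem_iff]

theorem val_eq_one_iff (h : StabAut V σ) (f : F) :
    V.valuation (σ f) = 1 ↔ V.valuation f = 1 := by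
  by_cases hf : f = 0
  · subst hf
    simp
  have hσf : σ f ≠ 0 := (map_ne_zero_iff σ σ.injective).2 hf
  rw [val_eq_one_iff_h199 V hf, val_eq_one_iff_h199 V hσf, ← map_inv₀, h.mem_iff, h.mem_iff]

theorem val_lt_one_iff (h : StabAut V σ) (f : F) :
    V.valuation (σ f) < 1 ↔ V.valuation f < 1 := by
  rw [lt_iff_le_and_ne, lt_iff_le_and_ne, h.val_le_one_iff, Ne, Ne, h.val_eq_one_iff]

/-- the inverse automorphism -/
theorem inv (h : StabAut V σ) : StabAut V σ.symm :=
  ⟨h.symm, fun f hf => by simpa using h.map f hf⟩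

/-- composition -/
theorem comp {τ : F ≃+* F} (h : StabAut V σ) (h' : StabAut V τ) :
    StabAut V (τ.trans σ) :=
  ⟨fun f hf => h.map _ (h'.map f hf), fun f hf => h'.symm _ (h.symm f hf)⟩

/-- **Ratio.**  `V` discrete with uniformiser `π`: `σ f / f` is a unit of `V`. -/
theorem val_ratio (h : StabAut V σ) {π : F} (hπ : IsUnif V π)
    (hdisc : ∀ x ∈ V, x ≠ 0 → ∃ (n : ℕ) (u : F), u ∈ V ∧ u⁻¹ ∈ V ∧ x = π ^ n * u)
    {f : F} (hf : f ≠ 0) : V.valuation (σ f / f) = 1 := by
  -- the uniformiser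
  have hπ0 : π ≠ 0 := hπ.ne_zero
  have hσπ : V.valuation (σ π) < 1 := (h.val_lt_one_iff π).2 hπ.val_lt_one
  have h1 : V.valuation (σ π) ≤ V.valuation π := hπ.val_le_of_lt_one hσπ
  have hσπ' : V.valuation (σ.symm π) < 1 := (h.inv.val_lt_one_iff π).2 hπ.val_lt_one
  have h2 : V.valuation (σ.symm π / π) ≤ 1 := by
    rw [map_div₀]
    exact div_le_one_of_le₀ (hπ.val_le_of_lt_one hσπ') zero_le
  have h3 : V.valuation (π / σ π) ≤ 1 := by
    have := (h.val_le_one_iff (σ.symm π / π)).2 h2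
    rwa [map_div₀, RingEquiv.apply_symm_apply] at this
  have hσπ0 : σ π ≠ 0 := (map_ne_zero_iff σ σ.injective).2 hπ0
  have hπv : V.valuation (σ π) = V.valuation π := by
    refine le_antisymm h1 ?_
    rw [map_div₀] at h3
    rwa [div_le_one₀ (zero_lt_iff.2 ((Valuation.ne_zero_iff _).2 hσπ0))] at h3
  -- elements of `V`
  have key : ∀ x ∈ V, x ≠ 0 → V.valuation (σ x) = V.valuation x := by
    intro x hx hx0
    obtain ⟨n, u, hu, hui, rfl⟩ := hdisc x hx hx0
    have hu0 : u ≠ 0 := right_ne_zero_of_mul hx0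
    have hu1 : V.valuation u = 1 := (val_eq_one_iff_h199 V hu0).2 ⟨hu, hui⟩
    rw [map_mul, map_pow, map_mul, map_mul, map_pow, map_pow, hπv, hu1,
      (h.val_eq_one_iff u).2 hu1]
  have hv : V.valuation (σ f) = V.valuation f := by
    rcases V.mem_or_inv_mem f with hfV | hfV
    · exact key f hfV hf
    · have := key f⁻¹ hfV (inv_ne_zero hf)
      rwa [map_inv₀, map_inv₀, map_inv₀, inv_inj] at this
  rw [map_div₀, hv, div_self ((Valuation.ne_zero_iff _).2 hf)]

end StabAut

/-- In a local ring with algebraically closed residue field every unit is an `m`-th power of a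
unit modulo the maximal ideal. -/
theorem exists_pow_sub_mem_maximalIdeal_h199 {R : Type*} [CommRing R] [IsLocalRing R]
    [IsAlgClosed (IsLocalRing.ResidueField R)] {m : ℕ} (hm : 0 < m) {e : R} (he : IsUnit e) :
    ∃ r : R, IsUnit r ∧ e - r ^ m ∈ IsLocalRing.maximalIdeal R := by
  obtain ⟨z, hz⟩ := IsAlgClosed.exists_pow_nat_eq (IsLocalRing.residue R e) hm
  obtain ⟨r, rfl⟩ := IsLocalRing.residue_surjective z
  have hr : IsUnit r := by
    by_contra hr
    have h0 : IsLocalRing.residue R r = 0 :=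
      (IsLocalRing.residue_eq_zero_iff r).2 ((IsLocalRing.mem_maximalIdeal r).2 hr)
    rw [h0, zero_pow hm.ne'] at hz
    have h1 : e ∈ IsLocalRing.maximalIdeal R := (IsLocalRing.residue_eq_zero_iff e).1 hz.symm
    exact (IsLocalRing.mem_maximalIdeal e).1 h1 he
  refine ⟨r, hr, ?_⟩
  rw [← IsLocalRing.residue_eq_zero_iff, map_sub, map_pow, hz, sub_self]

end Fermat.Agent.S35.G.H199

namespace Fermat.Agent.S35.G.H199

open Fermat.Agent.A2.H48

variable {F : Type*} [Field F]

/-! ## The conjugate valuation ring `V ∘ e` -/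

section Comap

variable (V : ValuationSubring F) (e : F ≃+* F)

theorem comap_val_le_one_iff (z : F) :
    (V.comap (e : F →+* F)).valuation z ≤ 1 ↔ V.valuation (e z) ≤ 1 := by
  rw [ValuationSubring.valuation_le_one_iff, ValuationSubring.valuation_le_one_iff,
    ValuationSubring.mem_comap]
  rfl

theorem comap_val_eq_one_iff (z : F) :
    (V.comap (e : F →+* F)).valuation z = 1 ↔ V.valuation (e z) = 1 := by
  by_cases hz : z = 0
  · subst hz
    simp
  have hez : e z ≠ 0 := (map_ne_zero_iff e e.injective).2 hz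
  rw [val_eq_one_iff_h199 _ hz, val_eq_one_iff_h199 _ hez, ValuationSubring.mem_comap,
    ValuationSubring.mem_comap, ← map_inv₀]
  rfl

theorem comap_val_lt_one_iff (z : F) :
    (V.comap (e : F →+* F)).valuation z < 1 ↔ V.valuation (e z) < 1 := by
  rw [lt_iff_le_and_ne, lt_iff_le_and_ne, comap_val_le_one_iff, Ne, Ne, comap_val_eq_one_iff]

variable {V e}

theorem isUnif_comap {π : F} (hπ : IsUnif V π) (he : e π = π) :
    IsUnif (V.comap (e : F →+* F)) π where
  mem := by
    rw [ValuationSubring.mem_comap]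
    show e π ∈ V
    rw [he]
    exact hπ.mem
  inv_not_mem := by
    rw [ValuationSubring.mem_comap]
    show ¬ e π⁻¹ ∈ V
    rw [map_inv₀, he]
    exact hπ.inv_not_mem
  gen := by
    intro f hf hfi
    rw [ValuationSubring.mem_comap] at hf hfi ⊢
    show e (f * π⁻¹) ∈ V
    rw [map_mul, map_inv₀, he]
    refine hπ.gen _ hf ?_
    intro h
    apply hfi
    show e f⁻¹ ∈ V
    rwa [map_inv₀]

theorem disc_comap {π : F} (he : e π = π)
    (hdisc : ∀ x ∈ V, x ≠ 0 → ∃ (n : ℕ) (u : F), u ∈ V ∧ u⁻¹ ∈ V ∧ x = π ^ n * u) :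
    ∀ x ∈ V.comap (e : F →+* F), x ≠ 0 →
      ∃ (n : ℕ) (u : F), u ∈ V.comap (e : F →+* F) ∧ u⁻¹ ∈ V.comap (e : F →+* F) ∧
        x = π ^ n * u := by
  intro x hx hx0
  rw [ValuationSubring.mem_comap] at hx
  have hex : e x ≠ 0 := (map_ne_zero_iff e e.injective).2 hx0
  obtain ⟨n, u, hu, hui, hxu⟩ := hdisc (e x) hx hex
  refine ⟨n, e.symm u, ?_, ?_, ?_⟩
  · rw [ValuationSubring.mem_comap]
    show e (e.symm u) ∈ V
    rwa [RingEquiv.apply_symm_apply]
  · rw [ValuationSubring.mem_comap]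
    show e (e.symm u)⁻¹ ∈ V
    rwa [map_inv₀, RingEquiv.apply_symm_apply]
  · apply e.injective
    rw [map_mul, map_pow, he, RingEquiv.apply_symm_apply]
    exact hxu

theorem StabAut.comap {σ : F ≃+* F} (h : StabAut V σ) (hc : ∀ f, σ (e f) = e (σ f)) :
    StabAut (V.comap (e : F →+* F)) σ where
  map := by
    intro f hf
    rw [ValuationSubring.mem_comap] at hf ⊢
    show e (σ f) ∈ V
    rw [← hc]
    exact h.map _ hf
  symm := by
    intro f hf
    rw [ValuationSubring.mem_comap] at hf ⊢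
    show e (σ.symm f) ∈ V
    have h1 : e (σ.symm f) = σ.symm (e f) := by
      apply σ.injective
      rw [hc, RingEquiv.apply_symm_apply, RingEquiv.apply_symm_apply]
    rw [h1]
    exact h.symm _ hf

end Comap

end Fermat.Agent.S35.G.H199

namespace Fermat.Agent.S35.G.H199

variable {F : Type*} [Field F]

/-! ## Local embeddings -/

section Local

variable {K : Type*} [Field K] {O : ValuationSubring K} {V : ValuationSubring F} {φ : K →+* F}

theorem local_val_le_one_iff (h : ∀ a, φ a ∈ V ↔ a ∈ O) (a : K) :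
    V.valuation (φ a) ≤ 1 ↔ O.valuation a ≤ 1 := by
  rw [ValuationSubring.valuation_le_one_iff, ValuationSubring.valuation_le_one_iff, h]

theorem local_val_eq_one_iff (h : ∀ a, φ a ∈ V ↔ a ∈ O) (a : K) :
    V.valuation (φ a) = 1 ↔ O.valuation a = 1 := by
  by_cases ha : a = 0
  · subst ha
    simp
  have hφa : φ a ≠ 0 := (map_ne_zero φ).2 ha
  rw [val_eq_one_iff_h199 _ ha, val_eq_one_iff_h199 _ hφa, ← map_inv₀, h, h]

theorem local_val_lt_one_iff (h : ∀ a, φ a ∈ V ↔ a ∈ O) (a : K) :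
    V.valuation (φ a) < 1 ↔ O.valuation a < 1 := by
  rw [lt_iff_le_and_ne, lt_iff_le_and_ne, local_val_le_one_iff h, Ne, Ne, local_val_eq_one_iff h]

end Local

end Fermat.Agent.S35.G.H199
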