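import Fermat.Agent.S35.G.SpecLevel
import Fermat.Agent.S35.G.H199.NRCore
import Fermat.Agent.S35.G.H199.ValAut
import Fermat.Agent.A2.Mod.H378.L11
import Fermat.Agent.A2.Mod.H708.Vinf
import Fermat.Agent.A2.Mod.H751.Fricke
import Fermat.Agent.A2.Mod.H454.L7

/-!
# S35 / (G') leaf TORIC — the modular instance, basic layer (helper199)

Basic facts for the instance of `NR.NRSetting` (see `ToricMod.lean`), level `E`:

* `actE_mul`, `actE_one`, `actE_alpha`, `actE_beta`, `actE_symm_eq` : the action `G.actE` on the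
  coefficients is multiplicative and commutes with `α`, `β`;
* `normAlong_equiv` : transport of `S29.H395.normAlong` by a pair of automorphisms
  (`Algebra.norm_eq_of_equiv_equiv`); `normHom` : the norm as a monoid homomorphism;
* `isUnif_V`, `isUnif_V0`, `disc_V0`, `inW_iff`, `inW0_iff` : `V∞`, `V₀ = V∞ ∘ W` are discrete
  with uniformiser `w` (L2, `H378.disc_V`);
* `stabAut_V`, `stabAut_V0` : `σ` preserves `V∞`, `V₀` (from `G.StableStatement`);
* `alpha_mem_iff'`, `beta_mem_iff`, `res_alpha`, `res_beta` : `α : V∞_M → V∞`, `β : V∞_M → V₀`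
  are local with residue degree one (L5, L7, L11).
-/

set_option autoImplicit false
set_option linter.style.haveILetI false
set_option linter.unusedSectionVars false
set_option synthInstance.maxHeartbeats 400000
set_option maxHeartbeats 1600000

noncomputable section

namespace Fermat.Agent.S35.G.H199

open ModularCurve AlgebraicCurve Fermat.Agent.A2.Mod

/-! ## The Galois action on the coefficients -/

section Act

variable (E : IntermediateField ℚ G.Qb) (N : ℕ)

theorem actE_mul (a b : E ≃ₐ[ℚ] E) (x : FE E N) :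
    actE E N (a * b) x = actE E N a (actE E N b x) := by
  apply Subtype.ext
  show coeffMap ((a * b : E ≃ₐ[ℚ] E) : E →+* E) (x : LaurentSeries E)
    = coeffMap (a : E →+* E) (coeffMap (b : E →+* E) (x : LaurentSeries E))
  rw [coeffMap_coeffMap]
  exact coeffMap_congr (RingHom.ext fun _ => rfl) _

theorem actE_one (x : FE E N) : actE E N 1 x = x := by
  apply Subtype.ext
  show coeffMap ((1 : E ≃ₐ[ℚ] E) : E →+* E) (x : LaurentSeries E) = (x : LaurentSeries E)
  rw [show ((1 : E ≃ₐ[ℚ] E) : E →+* E) = RingHom.id E from RingHom.ext fun _ => rfl,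
    coeffMap_id]

theorem actE_algebraMap (a : E ≃ₐ[ℚ] E) (e : E) :
    actE E N a (algebraMap E (FE E N) e) = algebraMap E (FE E N) (a e) :=
  arithmeticRingAut_algebraMap _ a e

variable (M q : ℕ) [NeZero M] [NeZero q]

theorem actE_alpha (a : E ≃ₐ[ℚ] E) (x : FE E M) :
    actE E (M * q) a (αE E M q x) = αE E M q (actE E M a x) := by
  apply Subtype.ext
  rw [coe_arithmeticRingAut_apply, coe_heckeAlphaBar, coe_heckeAlphaBar,
    coe_arithmeticRingAut_apply]

theorem actE_beta (a : E ≃ₐ[ℚ] E) (x : FE E M) :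
    actE E (M * q) a (βE E M q x) = βE E M q (actE E M a x) := by
  apply Subtype.ext
  rw [coe_arithmeticRingAut_apply, coe_heckeBetaBar, coe_heckeBetaBar,
    coe_arithmeticRingAut_apply, coeffMap_qExpand]

/-- the inverse of a stable automorphism is stable -/
theorem stableUnder_inv {s : G.Qb ≃ₐ[ℚ] G.Qb} (hs : StableUnder E s) : StableUnder E s⁻¹ :=
  fun e he => ⟨(hs e he).2, (hs e he).1⟩

theorem resE_inv_mul {s : G.Qb ≃ₐ[ℚ] G.Qb} (hs : StableUnder E s) :
    resE E s⁻¹ (stableUnder_inv E hs) * resE E s hs = 1 := by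
  ext e
  exact s.symm_apply_apply (e : G.Qb)

theorem resE_mul_inv {s : G.Qb ≃ₐ[ℚ] G.Qb} (hs : StableUnder E s) :
    resE E s hs * resE E s⁻¹ (stableUnder_inv E hs) = 1 := by
  ext e
  exact s.apply_symm_apply (e : G.Qb)

theorem actE_symm_eq {s : G.Qb ≃ₐ[ℚ] G.Qb} (hs : StableUnder E s) (x : FE E N) :
    (actE E N (resE E s hs)).symm x = actE E N (resE E s⁻¹ (stableUnder_inv E hs)) x := by
  apply (actE E N (resE E s hs)).injective
  rw [RingEquiv.apply_symm_apply, ← actE_mul, resE_mul_inv, actE_one]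

end Act

/-! ## Norms and automorphisms -/

section Norm

variable {K F F' : Type*} [Field K] [Field F] [Field F'] [Algebra K F] [Algebra K F']

/-- Transport of the norm by a pair of automorphisms. -/
theorem normAlong_equiv (φ ψ : F →ₐ[K] F') (e : F ≃+* F) (e' : F' ≃+* F')
    (h : ∀ x, e' (φ x) = ψ (e x)) (g : F') :
    S29.H395.normAlong ψ (e' g) = e (S29.H395.normAlong φ g) := by
  have h1 := @Algebra.norm_eq_of_equiv_equiv F F' F F' _ _ _ _ (algebraAlong φ) (algebraAlong ψ)
    e e' (by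
      ext x
      exact (h x).symm) g
  unfold S29.H395.normAlong
  rw [h1, RingEquiv.apply_symm_apply]

/-- the norm as a monoid homomorphism -/
def normHom (φ : F →ₐ[K] F') : F' →* F where
  toFun := S29.H395.normAlong φ
  map_one' := S29.H395.normAlong_one φ
  map_mul' := S29.H395.normAlong_mul φ

@[simp] theorem normHom_apply (φ : F →ₐ[K] F') (g : F') :
    normHom φ g = S29.H395.normAlong φ g := rfl

end Norm

/-! ## The Gauss valuations -/

section Val

variable {A : ValuationSubring G.Qb} {E : IntermediateField ℚ G.Qb} {M q : ℕ} [NeZero M]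
  [NeZero q] {w : RE A E}

/-- `V₀ = V∞ ∘ W` -/
abbrev vz {N : ℕ} (V : ValuationSubring (FE E N)) (W : FE E N ≃ₐ[E] FE E N) :
    ValuationSubring (FE E N) :=
  V.comap (W : FE E N →+* FE E N)

theorem vz_eq {N : ℕ} (V : ValuationSubring (FE E N)) (W : FE E N ≃ₐ[E] FE E N) :
    vz V W = V.comap ((W.toRingEquiv : FE E N ≃+* FE E N) : FE E N →+* FE E N) := rfl

theorem isUnif_V (hS : Setting A E M q w) {N : ℕ} (hN : N ≠ 0) {V : ValuationSubring (FE E N)}
    (hV : IsVinf A E N V) : A2.H48.IsUnif V (cE A E N w) :=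
  (H708.vinfBasic A E w N hN hS.dvr hS.unif V hV).1

theorem cst_mem_iff (hS : Setting A E M q w) {N : ℕ} (hN : N ≠ 0)
    {V : ValuationSubring (FE E N)} (hV : IsVinf A E N V) (e : E) :
    algebraMap E (FE E N) e ∈ V ↔ e ∈ RE A E :=
  (H708.vinfBasic A E w N hN hS.dvr hS.unif V hV).2.1 e

theorem W_cE {N : ℕ} (W : FE E N ≃ₐ[E] FE E N) (r : RE A E) :
    W.toRingEquiv (cE A E N r) = cE A E N r :=
  W.commutes (r : E)

theorem isUnif_V0 (hS : Setting A E M q w) {N : ℕ} (hN : N ≠ 0) {V : ValuationSubring (FE E N)}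
    (hV : IsVinf A E N V) (W : FE E N ≃ₐ[E] FE E N) : A2.H48.IsUnif (vz V W) (cE A E N w) :=
  isUnif_comap (isUnif_V hS hN hV) (W_cE W w)

theorem disc_V0 (hS : Setting A E M q w) {N : ℕ} {V : ValuationSubring (FE E N)}
    (hV : IsVinf A E N V) (W : FE E N ≃ₐ[E] FE E N) :
    ∀ x ∈ vz V W, x ≠ 0 → ∃ (n : ℕ) (u : FE E N), u ∈ vz V W ∧ u⁻¹ ∈ vz V W ∧
      x = cE A E N w ^ n * u :=
  disc_comap (W_cE W w) (fun _ hx hx0 => H378.disc_V hS N hV hx hx0)

/-- `InW` in terms of the valuation -/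
theorem inW_iff (hS : Setting A E M q w) {N : ℕ} (hN : N ≠ 0) {V : ValuationSubring (FE E N)}
    (hV : IsVinf A E N V) (f : FE E N) : InW A E N V w f ↔ V.valuation f < 1 :=
  (isUnif_V hS hN hV).mul_inv_mem_iff

theorem inW0_iff (hS : Setting A E M q w) {N : ℕ} (hN : N ≠ 0) {V : ValuationSubring (FE E N)}
    (hV : IsVinf A E N V) (W : FE E N ≃ₐ[E] FE E N) (f : FE E N) :
    InW A E N (vz V W) w f ↔ (vz V W).valuation f < 1 :=
  (isUnif_V0 hS hN hV W).mul_inv_mem_iff

theorem vz_val_lt_one_iff {N : ℕ} (V : ValuationSubring (FE E N)) (W : FE E N ≃ₐ[E] FE E N)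
    (z : FE E N) : (vz V W).valuation z < 1 ↔ V.valuation (W z) < 1 :=
  comap_val_lt_one_iff V W.toRingEquiv z

theorem vz_val_eq_one_iff {N : ℕ} (V : ValuationSubring (FE E N)) (W : FE E N ≃ₐ[E] FE E N)
    (z : FE E N) : (vz V W).valuation z = 1 ↔ V.valuation (W z) = 1 :=
  comap_val_eq_one_iff V W.toRingEquiv z

/-- the stability of `V∞` under `σ`, from STABLE for `s` and `s⁻¹` -/
theorem stabAut_V (hST : StableStatement A E) (hS : Setting A E M q w) {N : ℕ} (hN : N ≠ 0)
    {V : ValuationSubring (FE E N)} (hV : IsVinf A E N V) {W : FE E N ≃ₐ[E] FE E N}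
    (hW : IsFricke E N W) {s : G.Qb ≃ₐ[ℚ] G.Qb} (hs : StableUnder E s)
    (hsD : s ∈ A.decompositionSubgroup ℚ) :
    StabAut V (actE E N (resE E s hs)) where
  map := (hST N hN hS.dvr V W hV hW s hs hsD).2
  symm := by
    intro f hf
    rw [actE_symm_eq]
    exact (hST N hN hS.dvr V W hV hW s⁻¹ (stableUnder_inv E hs) (inv_mem hsD)).2 f hf

theorem stabAut_V0 (hST : StableStatement A E) (hS : Setting A E M q w) {N : ℕ} (hN : N ≠ 0)
    {V : ValuationSubring (FE E N)} (hV : IsVinf A E N V) {W : FE E N ≃ₐ[E] FE E N}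
    (hW : IsFricke E N W) {s : G.Qb ≃ₐ[ℚ] G.Qb} (hs : StableUnder E s)
    (hsD : s ∈ A.decompositionSubgroup ℚ) :
    StabAut (vz V W) (actE E N (resE E s hs)) :=
  (stabAut_V hST hS hN hV hW hs hsD).comap (e := W.toRingEquiv)
    (hST N hN hS.dvr V W hV hW s hs hsD).1

end Val

/-! ## Locality of `α`, `β`; residue degree one -/

section Inst

variable {A : ValuationSubring G.Qb} {E : IntermediateField ℚ G.Qb} {M q : ℕ} [NeZero M]
  [NeZero q] {w : RE A E}

theorem mq_ne_zero (M q : ℕ) [NeZero M] [NeZero q] : M * q ≠ 0 :=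
  mul_ne_zero (NeZero.ne M) (NeZero.ne q)

variable (hS : Setting A E M q w) {VM : ValuationSubring (FE E M)}
  {V : ValuationSubring (FE E (M * q))} {WM : FE E M ≃ₐ[E] FE E M}
  {W : FE E (M * q) ≃ₐ[E] FE E (M * q)} (hVM : IsVinf A E M VM) (hV : IsVinf A E (M * q) V)
  (hWM : IsFricke E M WM) (hW : IsFricke E (M * q) W)

include hS hVM in
theorem WM_mem_iff (hWM : IsFricke E M WM) (a : FE E M) : WM a ∈ VM ↔ a ∈ VM := by
  have h7 := H454.frickeStable A E M q w hS VM WM hVM hWM
  constructor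
  · intro h
    have := h7 _ h
    rwa [hWM.2] at this
  · exact h7 a

include hS hVM in
theorem stabAut_WM (hWM : IsFricke E M WM) : StabAut VM WM.toRingEquiv where
  map := fun f hf => (WM_mem_iff hS hVM hWM f).2 hf
  symm := by
    intro f hf
    have h1 : WM.toRingEquiv.symm f = WM f := by
      apply WM.toRingEquiv.injective
      rw [RingEquiv.apply_symm_apply]
      exact (hWM.2 f).symm
    rw [h1]
    exact (WM_mem_iff hS hVM hWM f).2 hf

include hS hVM hV in
theorem alpha_mem_iff' (a : FE E M) : (αE E M q : FE E M →+* FE E (M * q)) a ∈ V ↔ a ∈ VM :=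
  H378.alpha_mem_iff hS hVM hV a

include hS hVM hV in
theorem beta_mem_iff (hWM : IsFricke E M WM) (hW : IsFricke E (M * q) W) (a : FE E M) :
    (βE E M q : FE E M →+* FE E (M * q)) a ∈ vz V W ↔ a ∈ VM := by
  rw [ValuationSubring.mem_comap]
  show W (βE E M q a) ∈ V ↔ a ∈ VM
  rw [(H751.frickeCompat E M q WM W hWM hW a).2, H378.alpha_mem_iff hS hVM hV,
    WM_mem_iff hS hVM hWM]

theorem W_W (hW : IsFricke E (M * q) W) (f : FE E (M * q)) : W (W f) = f := hW.2 f

include hS hVM hV in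
theorem res_alpha (g : FE E (M * q)) (hg : V.valuation g = 1) :
    ∃ x, VM.valuation x = 1 ∧ V.valuation ((αE E M q : FE E M →+* FE E (M * q)) x - g) < 1 := by
  have hgV : g ∈ V := (V.valuation_le_one_iff g).1 hg.le
  obtain ⟨x, -, hxg⟩ := H378.resInf A E M q w hS VM V hVM hV g hgV
  rw [inW_iff hS (mq_ne_zero M q) hV] at hxg
  have h1 : V.valuation ((αE E M q : FE E M →+* FE E (M * q)) x - g) < 1 := by
    rw [← Valuation.map_neg, neg_sub]
    exact hxg
  refine ⟨x, ?_, h1⟩
  rw [← local_val_eq_one_iff (alpha_mem_iff' hS hVM hV)]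
  exact NR.val_eq_one_of_cong V h1 hg

include hS hVM hV in
theorem res_beta (hWM : IsFricke E M WM) (hW : IsFricke E (M * q) W) (g : FE E (M * q))
    (hg : (vz V W).valuation g = 1) :
    ∃ y, VM.valuation y = 1 ∧
      (vz V W).valuation ((βE E M q : FE E M →+* FE E (M * q)) y - g) < 1 := by
  have hg1 : V.valuation (W g) = 1 := (vz_val_eq_one_iff V W g).1 hg
  obtain ⟨x, -, hx⟩ := res_alpha hS hVM hV (W g) hg1
  have h1 : (vz V W).valuation ((βE E M q : FE E M →+* FE E (M * q)) (WM x) - g) < 1 := by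
    rw [vz_val_lt_one_iff, map_sub]
    show V.valuation (W (βE E M q (WM x)) - W g) < 1
    rw [(H751.frickeCompat E M q WM W hWM hW (WM x)).2, hWM.2]
    exact hx
  refine ⟨WM x, ?_, h1⟩
  rw [← local_val_eq_one_iff (beta_mem_iff hS hVM hV hWM hW)]
  exact NR.val_eq_one_of_cong _ h1 hg

end Inst

end Fermat.Agent.S35.G.H199
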