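import Fermat.Agent.S35.G.H199.ToricBase
import Fermat.Agent.S35.G.H60.ToricSpec

/-!
# S35 / (G') leaf TORIC, sub-leaf GLUE (helper199)

`glue : H60.GlueStatement A E M q w m`, i.e.
`H60.NormRedStatement A E M q w → G.StableStatement A E → G.KronFrobStatement A E M q w →
    G.ToricStatement A E M q m w`  (VERBATIM, unconditional).

Route: the instance `nrSetting` of helper502's abstract `NRSetting` (`NRCore.lean`) on
`F_M = FE E M`, `F_N = FE E (M q)`, `V₁ = V∞`, `V₂ = V₀ = V∞ ∘ W`,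
`σ = G.actE E N (A2.Mod.resE E s hs)`, from the A2/MOD leaves on main (L1, L2, L4, L5, L7, L11,
discreteness of `V∞`), STABLE, KRON-FROB and NORM-RED (the `β`-form of NORM-RED is deduced by
Fricke transport); then `NRSetting.gSplit_of_qNew`, and the constant of `GSplitAt` is an `m`-th
power modulo `w` because the residue field of `R_E` is algebraically closed.
The element `g` produced is a UNIT of the valuation ring (`toricU_of_parts`), so the `PowVU` form
follows as well.
-/

set_option autoImplicit false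
set_option linter.style.haveILetI false
set_option linter.unusedSectionVars false
set_option synthInstance.maxHeartbeats 400000
set_option maxHeartbeats 1600000

noncomputable section

namespace Fermat.Agent.S35.G.H199

open ModularCurve AlgebraicCurve Fermat.Agent.A2.Mod

/-- the constants of `F_{N,E}` -/
def constF (E : IntermediateField ℚ G.Qb) (N : ℕ) : Subfield (FE E N) :=
  (algebraMap E (FE E N)).fieldRange

section Inst

variable {A : ValuationSubring G.Qb} {E : IntermediateField ℚ G.Qb} {M q : ℕ} [NeZero M]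
  [NeZero q] {w : RE A E}

/-- **The instance of `NRSetting`.** -/
theorem nrSetting (hNR : H60.NormRedStatement A E M q w) (hST : StableStatement A E)
    (hKF : KronFrobStatement A E M q w) (hS : Setting A E M q w)
    {VM : ValuationSubring (FE E M)} {V : ValuationSubring (FE E (M * q))}
    {WM : FE E M ≃ₐ[E] FE E M} {W : FE E (M * q) ≃ₐ[E] FE E (M * q)}
    (hVM : IsVinf A E M VM) (hV : IsVinf A E (M * q) V)
    (hWM : IsFricke E M WM) (hW : IsFricke E (M * q) W)
    {s : G.Qb ≃ₐ[ℚ] G.Qb} (hs : StableUnder E s) (hFr : A.IsFrobeniusAt s q) :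
    NR.NRSetting q (αE E M q : FE E M →+* FE E (M * q))
      (βE E M q : FE E M →+* FE E (M * q))
      (actE E M (resE E s hs)) (actE E (M * q) (resE E s hs)) VM V (vz V W)
      (constF E M) (constF E (M * q)) (normHom (αE E M q)) (normHom (βE E M q)) := by
  have hsD : s ∈ A.decompositionSubgroup ℚ := hFr.1
  have hM : M ≠ 0 := NeZero.ne M
  have hN : M * q ≠ 0 := mq_ne_zero M q
  have stabM := stabAut_V hST hS hM hVM hWM hs hsD
  have stab1 := stabAut_V hST hS hN hV hW hs hsD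
  have stab2 := stabAut_V0 hST hS hN hV hW hs hsD
  have L5 := H751.frickeCompat E M q WM W hWM hW
  have hcommM := (hST M hM hS.dvr VM WM hVM hWM s hs hsD).1
  have hα := alpha_mem_iff' hS hVM hV
  have hβ := beta_mem_iff (V := V) hS hVM hV hWM hW
  have memM : ∀ {x : FE E M}, VM.valuation x = 1 → x ∈ VM := fun hx =>
    (VM.valuation_le_one_iff _).1 hx.le
  refine
    { comm_α := fun a => actE_alpha E M q _ a
      comm_β := fun a => actE_beta E M q _ a
      norm_α := fun g => normAlong_equiv (αE E M q) (αE E M q) (actE E M (resE E s hs))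
        (actE E (M * q) (resE E s hs)) (fun x => actE_alpha E M q _ x) g
      norm_β := fun g => normAlong_equiv (βE E M q) (βE E M q) (actE E M (resE E s hs))
        (actE E (M * q) (resE E s hs)) (fun x => actE_beta E M q _ x) g
      val_M := stabM.val_eq_one_iff
      max_M := stabM.val_lt_one_iff
      ratio_M := fun h hh => stabM.val_ratio (isUnif_V hS hM hVM)
        (fun x hx hx0 => H378.disc_V hS M hVM hx hx0) hh
      max₁ := stab1.val_lt_one_iff
      ratio₁ := fun f hf => stab1.val_ratio (isUnif_V hS hN hV)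
        (fun x hx hx0 => H378.disc_V hS (M * q) hV hx hx0) hf
      max₂ := stab2.val_lt_one_iff
      ratio₂ := fun f hf => stab2.val_ratio (isUnif_V0 hS hN hV W) (disc_V0 hS hV W) hf
      unit_α := fun a ha => (local_val_eq_one_iff hα a).2 ha
      max_α := fun a ha => (local_val_lt_one_iff hα a).2 ha
      unit_β := fun a ha => (local_val_eq_one_iff hβ a).2 ha
      max_β := fun a ha => (local_val_lt_one_iff hβ a).2 ha
      res_α := res_alpha hS hVM hV
      res_β := res_beta hS hVM hV hWM hW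
      kron₁ := fun b hb => (inW_iff hS hN hV _).1 (hKF hS VM V hVM hV s hs hFr b (memM hb))
      kron₂ := ?_
      normRes_α := ?_
      normRes_β := ?_
      const_σ := ?_
      const_α := ?_
      const_β := ?_ }
  · -- kron₂
    intro b hb
    rw [vz_val_lt_one_iff, map_sub, map_pow]
    show V.valuation (W (αE E M q (actE E M (resE E s hs) b)) - (W (βE E M q b)) ^ q) < 1
    rw [(L5 _).1, (L5 b).2, ← hcommM b]
    exact (inW_iff hS hN hV _).1
      (hKF hS VM V hVM hV s hs hFr (WM b) ((WM_mem_iff hS hVM hWM b).2 (memM hb)))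
  · -- normRes_α
    intro g x₁ x₂ hg1 hg2 hx₁ hx₂ h1 h2
    show VM.valuation (S29.H395.normAlong (αE E M q) g - x₁ * x₂) < 1
    rw [← inW_iff hS hM hVM]
    have hgV : g ∈ V := (V.valuation_le_one_iff _).1 hg1.le
    have hWgV : W g ∈ V := ((vz V W).valuation_le_one_iff _).1 hg2.le
    refine hNR hS VM V W hVM hV hW g hgV hWgV x₁ (memM hx₁) x₂ (memM hx₂) ?_ ?_
    · rw [inW_iff hS hN hV, ← Valuation.map_neg, neg_sub]
      exact h1
    · rw [inW0_iff hS hN hV W, ← Valuation.map_neg, neg_sub]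
      exact h2
  · -- normRes_β
    intro g y₁ y₂ hg1 hg2 hy₁ hy₂ h1 h2
    show VM.valuation (S29.H395.normAlong (βE E M q) g - y₁ * y₂) < 1
    have hgV : g ∈ V := (V.valuation_le_one_iff _).1 hg1.le
    have hWgV : W g ∈ V := ((vz V W).valuation_le_one_iff _).1 hg2.le
    have hNβ : S29.H395.normAlong (βE E M q) g
        = WM (S29.H395.normAlong (αE E M q) (W g)) := by
      have h3 := normAlong_equiv (αE E M q) (βE E M q) WM.toRingEquiv W.toRingEquiv
        (fun x => (L5 x).1) (W g)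
      have h4 : W.toRingEquiv (W g) = g := hW.2 g
      rw [h4] at h3
      exact h3
    have e1 : WM (S29.H395.normAlong (αE E M q) (W g)) - y₁ * y₂
        = WM.toRingEquiv (S29.H395.normAlong (αE E M q) (W g) - WM y₂ * WM y₁) := by
      show _ = WM (S29.H395.normAlong (αE E M q) (W g) - WM y₂ * WM y₁)
      rw [map_sub, map_mul, hWM.2, hWM.2, mul_comm y₂ y₁]
    rw [hNβ, e1, (stabAut_WM hS hVM hWM).val_lt_one_iff, ← inW_iff hS hM hVM]
    refine hNR hS VM V W hVM hV hW (W g) hWgV ?_ (WM y₂)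
      ((WM_mem_iff hS hVM hWM y₂).2 (memM hy₂)) (WM y₁)
      ((WM_mem_iff hS hVM hWM y₁).2 (memM hy₁)) ?_ ?_
    · rw [hW.2]
      exact hgV
    · -- `W g ≡ α (W_M y₂)` at `V∞`
      rw [inW_iff hS hN hV, ← (L5 y₂).2, ← map_sub, ← vz_val_lt_one_iff, ← Valuation.map_neg,
        neg_sub]
      exact h2
    · -- `(W g)^q ≡ α (W_M y₁)` at `V₀`
      rw [inW0_iff hS hN hV W, vz_val_lt_one_iff, map_sub, map_pow, hW.2, (L5 _).1, hWM.2,
        ← Valuation.map_neg, neg_sub]
      exact h1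
  · -- const_σ
    rintro c ⟨e, rfl⟩
    exact ⟨resE E s hs e, (actE_algebraMap E M _ e).symm⟩
  · -- const_α
    rintro c ⟨e, rfl⟩
    exact ⟨e, ((αE E M q).commutes e).symm⟩
  · -- const_β
    rintro c ⟨e, rfl⟩
    exact ⟨e, ((βE E M q).commutes e).symm⟩

end Inst

/-! ## Constants are `m`-th powers modulo `w` -/

section Const

variable {A : ValuationSubring G.Qb} {E : IntermediateField ℚ G.Qb} {w : RE A E}

/-- `GSplitAt` gives a unit `g` with `u ≡ g ^ m mod w V` (the residue field of `R_E` is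
algebraically closed). -/
theorem exists_unit_pow_of_gSplit (hGF : A2.GoodField A E) {N : ℕ}
    {V : ValuationSubring (FE E N)} (hunif : A2.H48.IsUnif V (cE A E N w))
    (hcst : ∀ e : E, algebraMap E (FE E N) e ∈ V ↔ e ∈ RE A E) {m : ℕ} (hm : 0 < m)
    {u : FE E N} (h : NR.GSplitAt V (constF E N) m u) :
    ∃ g : FE E N, g ≠ 0 ∧ g ∈ V ∧ g⁻¹ ∈ V ∧ (u - g ^ m) * (cE A E N w)⁻¹ ∈ V := by
  obtain ⟨c, ⟨e, rfl⟩, y, hc, hy, hu⟩ := h
  have he0 : e ≠ 0 := by
    rintro rfl
    simp at hc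
  have hc0 : algebraMap E (FE E N) e ≠ 0 := (map_ne_zero _).2 he0
  have hmem := (val_eq_one_iff_h199 V hc0).1 hc
  have heR : e ∈ RE A E := (hcst e).1 hmem.1
  have heR' : e⁻¹ ∈ RE A E := (hcst e⁻¹).1 (by rw [map_inv₀]; exact hmem.2)
  haveI : IsAlgClosed (IsLocalRing.ResidueField (RE A E)) := hGF.algClosed
  have hunit : IsUnit (⟨e, heR⟩ : RE A E) :=
    ⟨⟨⟨e, heR⟩, ⟨e⁻¹, heR'⟩, Subtype.ext (mul_inv_cancel₀ he0),
      Subtype.ext (inv_mul_cancel₀ he0)⟩, rfl⟩
  obtain ⟨r, hr, hrm⟩ := exists_pow_sub_mem_maximalIdeal_h199 hm hunit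
  -- `r` is a unit of `V`
  obtain ⟨ru, hru⟩ := hr
  have hr0 : (r : E) ≠ 0 := by
    intro h0
    have : r = 0 := Subtype.ext h0
    rw [← hru] at this
    exact ru.ne_zero this
  have hrinv : (r : E)⁻¹ ∈ RE A E := by
    have h1 : ((ru⁻¹ : (RE A E)ˣ) : RE A E) * r = 1 := by
      rw [← hru]
      exact ru.inv_mul
    have h2 : (((ru⁻¹ : (RE A E)ˣ) : RE A E) : E) * (r : E) = 1 := congrArg Subtype.val h1
    have h3 : (r : E)⁻¹ = (((ru⁻¹ : (RE A E)ˣ) : RE A E) : E) :=
      (eq_inv_of_mul_eq_one_left h2).symm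
    rw [h3]
    exact ((ru⁻¹ : (RE A E)ˣ) : RE A E).2
  have hcr0 : cE A E N r ≠ 0 := (map_ne_zero _).2 hr0
  have hr1 : V.valuation (cE A E N r) = 1 := by
    rw [val_eq_one_iff_h199 V hcr0]
    refine ⟨(hcst _).2 r.2, ?_⟩
    have : (cE A E N r)⁻¹ = algebraMap E (FE E N) (r : E)⁻¹ := (map_inv₀ _ _).symm
    rw [this]
    exact (hcst _).2 hrinv
  -- the difference `e - r ^ m`
  have hd : V.valuation (algebraMap E (FE E N) e - cE A E N r ^ m) < 1 := by
    have hnu : ¬ IsUnit ((⟨e, heR⟩ : RE A E) - r ^ m) :=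
      (IsLocalRing.mem_maximalIdeal _).1 hrm
    have hde : algebraMap E (FE E N) e - cE A E N r ^ m
        = algebraMap E (FE E N) ((((⟨e, heR⟩ : RE A E) - r ^ m : RE A E)) : E) := by
      rw [show ((((⟨e, heR⟩ : RE A E) - r ^ m : RE A E)) : E) = e - (r : E) ^ m from rfl,
        map_sub, map_pow]
      rfl
    rw [hde, val_lt_one_iff_h199]
    refine ⟨(hcst _).2 (Subtype.mem _), ?_⟩
    by_cases hz : ((((⟨e, heR⟩ : RE A E) - r ^ m : RE A E)) : E) = 0
    · left
      rw [hz, map_zero]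
    · right
      intro hinv
      rw [← map_inv₀, hcst] at hinv
      apply hnu
      exact ⟨⟨_, ⟨_, hinv⟩, Subtype.ext (mul_inv_cancel₀ hz),
        Subtype.ext (inv_mul_cancel₀ hz)⟩, rfl⟩
  have hy0 : y ≠ 0 := NR.ne_zero_of_val_eq_one V hy
  have hg1 : V.valuation (cE A E N r * y) = 1 := NR.val_mul_eq_one V hr1 hy
  have hg0 : cE A E N r * y ≠ 0 := mul_ne_zero hcr0 hy0
  have hgm := (val_eq_one_iff_h199 V hg0).1 hg1
  refine ⟨cE A E N r * y, hg0, hgm.1, hgm.2, ?_⟩
  rw [hunif.mul_inv_mem_iff]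
  have e1 : u - (cE A E N r * y) ^ m
      = (u - algebraMap E (FE E N) e * y ^ m)
        + (algebraMap E (FE E N) e - cE A E N r ^ m) * y ^ m := by
    ring
  rw [e1]
  refine Valuation.map_add_lt _ hu ?_
  exact NR.val_mul_lt_one_left V hd (NR.val_pow_eq_one V hy m).le

end Const

/-! ## GLUE -/

section Glue

variable {A : ValuationSubring G.Qb} {E : IntermediateField ℚ G.Qb} {M q : ℕ} [NeZero M]
  [NeZero q] {w : RE A E}

theorem frobSub_one_eq {F : Type*} [Field F] (φ : F ≃+* F) (f : F) :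
    frobSub φ 1 f = φ f / f := by
  rw [frobSub, pow_one, div_eq_mul_inv]

theorem psiE_apply (N : ℕ) {s : G.Qb ≃ₐ[ℚ] G.Qb} (hs : StableUnder E s) (x : FE E N) :
    psiE E N s hs x = actE E N (resE E s hs) (actE E N (resE E s hs) x) :=
  actE_mul E N _ _ x

/-- **TORIC with a unit `g`** (`PowVU` form), from NORM-RED, STABLE, KRON-FROB. -/
theorem toricU_of_parts (m : ℕ) (hNR : H60.NormRedStatement A E M q w)
    (hST : StableStatement A E) (hKF : KronFrobStatement A E M q w)
    (hS : Setting A E M q w) (hGF : A2.GoodField A E) (hm : 0 < m)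
    {V : ValuationSubring (FE E (M * q))} {W : FE E (M * q) ≃ₐ[E] FE E (M * q)}
    (hV : IsVinf A E (M * q) V) (hW : IsFricke E (M * q) W)
    {s : G.Qb ≃ₐ[ℚ] G.Qb} (hs : StableUnder E s) (hFr : A.IsFrobeniusAt s q)
    {f : FE E (M * q)} (hf : f ≠ 0)
    (hα : NormPow (αE E M q) m f) (hβ : NormPow (βE E M q) m f) :
    (∃ g : FE E (M * q), g ≠ 0 ∧ g ∈ V ∧ g⁻¹ ∈ V ∧
      (frobSub (psiE E (M * q) s hs) 1 (frobSub (psiE E (M * q) s hs) 1 f) - g ^ m) *
        (cE A E (M * q) w)⁻¹ ∈ V) ∧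
    (∃ g : FE E (M * q), g ≠ 0 ∧ g ∈ vz V W ∧ g⁻¹ ∈ vz V W ∧
      (frobSub (psiE E (M * q) s hs) 1 (frobSub (psiE E (M * q) s hs) 1 f) - g ^ m) *
        (cE A E (M * q) w)⁻¹ ∈ vz V W) := by
  have hM : M ≠ 0 := NeZero.ne M
  have hN : M * q ≠ 0 := mq_ne_zero M q
  obtain ⟨VM, hVM⟩ := H708.vinfExists A E M hM hS.dvr
  obtain ⟨WM, hWM⟩ := H751.frickeExists E M hM
  have S := nrSetting hNR hST hKF hS hVM hV hWM hW hs hFr
  obtain ⟨c, h, hch⟩ := hα
  obtain ⟨c', h', hch'⟩ := hβ
  have key := S.gSplit_of_qNew (m := m) hf (c := algebraMap E (FE E M) c)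
    (c' := algebraMap E (FE E M) c') (h := h) (h' := h') ⟨c, rfl⟩ ⟨c', rfl⟩ hch hch'
  have hexpr : frobSub (psiE E (M * q) s hs) 1 (frobSub (psiE E (M * q) s hs) 1 f)
      = actE E (M * q) (resE E s hs) (actE E (M * q) (resE E s hs)
          (actE E (M * q) (resE E s hs) (actE E (M * q) (resE E s hs) f) / f))
        / (actE E (M * q) (resE E s hs) (actE E (M * q) (resE E s hs) f) / f) := by
    rw [frobSub_one_eq, frobSub_one_eq, psiE_apply, psiE_apply]
  rw [hexpr]
  refine ⟨exists_unit_pow_of_gSplit hGF (isUnif_V hS hN hV) (cst_mem_iff hS hN hV) hm key.1,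
    exists_unit_pow_of_gSplit hGF (isUnif_V0 hS hN hV W) ?_ hm key.2⟩
  intro e
  rw [ValuationSubring.mem_comap]
  show W (algebraMap E (FE E (M * q)) e) ∈ V ↔ e ∈ RE A E
  rw [W.commutes]
  exact cst_mem_iff hS hN hV e

/-- **TORIC from NORM-RED, STABLE, KRON-FROB.** -/
theorem toric_of_parts (m : ℕ) (hNR : H60.NormRedStatement A E M q w)
    (hST : StableStatement A E) (hKF : KronFrobStatement A E M q w) :
    ToricStatement A E M q m w := by
  intro hS hGF hm _ V W hV hW s hs hFr f hf hα hβ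
  obtain ⟨⟨g, -, hg, hgi, hgu⟩, ⟨g', -, hg', hgi', hgu'⟩⟩ :=
    toricU_of_parts m hNR hST hKF hS hGF hm hV hW hs hFr hf hα hβ
  exact ⟨⟨g, hg, hgi, hgu⟩, ⟨g', hg', hgi', hgu'⟩⟩

/-- **GLUE** (`H60.GlueStatement`, verbatim). -/
theorem glue (A : ValuationSubring G.Qb) (E : IntermediateField ℚ G.Qb) (M q : ℕ) [NeZero M]
    [NeZero q] (w : RE A E) (m : ℕ) : H60.GlueStatement A E M q w m :=
  fun hNR hST hKF => toric_of_parts m hNR hST hKF

end Glue

end Fermat.Agent.S35.G.H199
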