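import Fermat.Agent.S35.G.H199.Toric
import Fermat.Agent.S35.H891.LevelU

/-!
# S35 / (G') leaf TORIC, `PowVU` form (helper199)

`toricStatementU : S35.H891.ToricStatementU A E M q m w` (VERBATIM `S35/H891/LevelU.lean`,
unconditional): `H199.toricU` in the shape consumed by `H891.levelFrob_of_partsU`.
-/

set_option autoImplicit false
set_option linter.style.haveILetI false
set_option linter.unusedSectionVars false
set_option synthInstance.maxHeartbeats 400000
set_option maxHeartbeats 1600000

namespace Fermat.Agent.S35.G.H199

open ModularCurve AlgebraicCurve Fermat.Agent.A2.Mod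

/-- **TORIC, v2** (`PowVU` form), unconditional. -/
theorem toricStatementU (A : ValuationSubring G.Qb) (E : IntermediateField ℚ G.Qb) (M q m : ℕ)
    [NeZero M] [NeZero q] (w : RE A E) : S35.H891.ToricStatementU A E M q m w := by
  intro hS hGF hm _ V W hV hW s hs hFr f hf hα hβ
  exact toricU A E M q m w hS hGF hm hV hW hs hFr hf hα hβ

end Fermat.Agent.S35.G.H199
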